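import Fermat.Agent.TWGal.Tame
import Fermat.Agent.Galois.Unramified
import Fermat.Agent.Galois.Cyclotomic

/-!
# A generator of tame inertia modulo everything of order prime to `p`

An inertia element moving a `p`-th root of `q` generates the image of inertia in every finite
level homomorphism in which that image is a `p`-group, and a Frobenius raises it to the `q`-th
power there.
-/

set_option autoImplicit false
set_option linter.style.haveILetI false

noncomputable section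

namespace Fermat.Agent.LL

open Fermat.Agent.Galois
open scoped NumberField

variable {A : ValuationSubring Qbar} {p q : ℕ}

/-- Some inertia element moves some `p`-th root of `q`. -/
theorem exists_inertia_moves (hA : A.LiesOverPrime q) (hp : p.Prime) (hq : q.Prime) :
    ∃ τ ∈ A.inertiaSubgroupIn ℚ, ∃ α : Qbar, α ^ p = q ∧ τ α ≠ α := by
  by_contra hcon
  simp only [not_exists, not_and, not_not] at hcon
  obtain ⟨α, hα⟩ := IsAlgClosed.exists_pow_nat_eq (q : Qbar) hp.pos
  let F : IntermediateField ℚ Qbar := IntermediateField.adjoin ℚ ({α} : Set Qbar)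
  have hαi : IsIntegral ℤ α := IsIntegral.of_pow hp.pos (hα ▸ isIntegral_algebraMap (x := (q : ℤ)))
  haveI : FiniteDimensional ℚ F :=
    IntermediateField.adjoin.finiteDimensional (hαi.tower_top)
  have hF : InertiaLE q F.fixingSubgroup := by
    intro B hB σ hσ
    obtain ⟨τ, rfl⟩ := exists_smul_eq hA hB hq
    rw [mem_inertia_smul_iff] at hσ
    rw [IntermediateField.mem_fixingSubgroup_iff]
    suffices h : F ≤ IntermediateField.fixedField (Subgroup.zpowers σ) from fun x hx =>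
      h hx ⟨σ, Subgroup.mem_zpowers σ⟩
    rw [IntermediateField.adjoin_le_iff, Set.singleton_subset_iff]
    rintro ⟨g, hg⟩
    obtain ⟨n, rfl⟩ := Subgroup.mem_zpowers_iff.mp hg
    have h1 : σ α = α := by
      have h2 := hcon _ hσ (τ⁻¹ α) (by rw [← map_pow, hα, map_natCast])
      rw [AlgEquiv.mul_apply, AlgEquiv.mul_apply, galQ_apply_inv] at h2
      exact τ⁻¹.injective h2
    exact (MulAction.mem_stabilizer_iff (G := GalQ)).mp
      (zpow_mem (MulAction.mem_stabilizer_iff.mpr h1 : σ ∈ MulAction.stabilizer GalQ α) n)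
  let N := IntermediateField.normalClosure ℚ F Qbar
  haveI : NumberField N := NumberField.of_module_finite ℚ N
  haveI : Normal ℚ N := normalClosure.normal ℚ F Qbar
  haveI : IsGalois ℚ N := ⟨⟩
  have hN : InertiaLE q N.fixingSubgroup := inertiaLE_normalClosure hF
  have hnd := (inertiaLE_iff_not_dvd_discr N hq).mp hN
  rw [NumberField.not_dvd_discr_iff_forall_mem N (𝓞 N) (Nat.prime_iff_prime_int.mp hq)] at hnd
  have hαN : α ∈ N := F.le_normalClosure (IntermediateField.mem_adjoin_simple_self ℚ α)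
  let a : 𝓞 N := ⟨⟨α, hαN⟩,
    (isIntegral_algHom_iff (IsScalarTower.toAlgHom ℤ N Qbar) Subtype.val_injective).mp hαi⟩
  have ha : a ^ p = (q : 𝓞 N) := NumberField.RingOfIntegers.ext (Subtype.ext (by
    push_cast
    exact hα))
  have hqu : ¬ IsUnit (q : 𝓞 N) := by
    intro hu
    have h := (levelPlaceIdeal_isPrime N A).ne_top
    exact h (Ideal.eq_top_of_isUnit_mem _ (natCast_mem_levelPlaceIdeal N hA) hu)
  obtain ⟨P, hPmax, hqP⟩ := Ideal.exists_le_maximal _
    (mt Ideal.span_singleton_eq_top.mp hqu)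
  have hqP' : (q : 𝓞 N) ∈ P := hqP (Ideal.mem_span_singleton_self _)
  haveI := hPmax.isPrime
  have hun : Algebra.IsUnramifiedAt ℤ P := hnd P inferInstance (by simpa using hqP')
  have hP0 : P ≠ ⊥ := fun h0 => Nat.cast_ne_zero.mpr hq.ne_zero (Ideal.mem_bot.mp (h0 ▸ hqP'))
  have hu0 : P.under ℤ ≠ ⊥ := mt Ideal.eq_bot_of_comap_eq_bot hP0
  have he := Ideal.ramificationIdx_eq_one (q := P) (R := ℤ)
  rw [← Ideal.ramificationIdx'_eq_ramificationIdx (P.under ℤ) P hu0] at he
  refine (Ideal.ramificationIdx'_ne_one_iff (Ideal.map_comap_le)).mpr ?_ he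
  have hspan : P.under ℤ = Ideal.span {(q : ℤ)} := by
    haveI := PrincipalIdealRing.isMaximal_of_irreducible
      (Nat.prime_iff_prime_int.mp hq).irreducible
    refine (Ideal.IsMaximal.eq_of_le this (Ideal.IsPrime.ne_top inferInstance)
      (Ideal.span_le.mpr (Set.singleton_subset_iff.mpr ?_))).symm
    simpa [Ideal.mem_comap] using hqP'
  show Ideal.map _ (P.under ℤ) ≤ P ^ 2
  rw [hspan, Ideal.map_span, Set.image_singleton, map_natCast, Ideal.span_le,
    Set.singleton_subset_iff, SetLike.mem_coe, ← ha]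
  exact Ideal.pow_le_pow_right hp.two_le
    (Ideal.pow_mem_pow (Ideal.IsPrime.mem_of_pow_mem inferInstance p (ha ▸ hqP')) p)

section Roots

variable (p q)

/-- The `p`-th roots of `q`. -/
abbrev RootSet : Type := {x : Qbar // x ^ p = (q : Qbar)}

/-- The action on the `p`-th roots of `q`. -/
def rootsPerm : GalQ →* Equiv.Perm (RootSet p q) where
  toFun σ :=
    { toFun := fun x => ⟨σ x, by rw [← map_pow, x.2, map_natCast]⟩
      invFun := fun x => ⟨σ⁻¹ x, by rw [← map_pow, x.2, map_natCast]⟩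
      left_inv := fun x => Subtype.ext (galQ_inv_apply σ x.1)
      right_inv := fun x => Subtype.ext (galQ_apply_inv σ x.1) }
  map_one' := by ext x; rfl
  map_mul' σ τ := by ext x; rfl

/-- The field generated by the roots. -/
def rootsLevel : IntermediateField ℚ Qbar :=
  IntermediateField.adjoin ℚ {x : Qbar | x ^ p = (q : Qbar)}

theorem finiteDimensional_rootsLevel (hp : 0 < p) : FiniteDimensional ℚ (rootsLevel p q) := by
  have hfin : {x : Qbar | x ^ p = (q : Qbar)}.Finite := by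
    refine ((Polynomial.X ^ p - Polynomial.C (q : Qbar)).rootSet_finite Qbar).subset fun x hx => ?_
    rw [Polynomial.mem_rootSet_of_ne (Polynomial.X_pow_sub_C_ne_zero hp _)]
    simp only [Set.mem_ofPred_eq] at hx
    simp [hx]
  haveI := hfin.to_subtype
  exact IntermediateField.finiteDimensional_adjoin fun x hx =>
    IsIntegral.of_pow hp (by rw [Set.mem_ofPred_eq] at hx; rw [hx]; exact isIntegral_algebraMap (x := (q : ℚ)))

theorem rootsPerm_eq_one {σ : GalQ} (h : ∀ x ∈ rootsLevel p q, σ x = x) : rootsPerm p q σ = 1 :=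
  Equiv.ext fun x => Subtype.ext (h x.1 (IntermediateField.subset_adjoin _ _ x.2))

variable {p q}

theorem rootsPerm_pow_eq_one (hA : A.LiesOverPrime q) (hq : q.Prime) (hp : p.Prime) (hpq : q ≠ p)
    {σ : GalQ} (hσ : σ ∈ A.inertiaSubgroupIn ℚ) : rootsPerm p q σ ^ p = 1 := by
  refine Equiv.ext fun x => Subtype.ext ?_
  have hx0 : x.1 ≠ 0 := by
    intro h
    have := x.2
    rw [h, zero_pow hp.ne_zero] at this
    exact Nat.cast_ne_zero.mpr hq.ne_zero this.symm
  set ζ := σ x.1 / x.1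
  have hζp : ζ ^ p = 1 := by
    rw [div_pow, ← map_pow, x.2, map_natCast, div_self (Nat.cast_ne_zero.mpr hq.ne_zero)]
  have hσζ : σ ζ = ζ :=
    inertia_apply_rootOfUnity hA hq hσ (fun h => hpq ((Nat.prime_dvd_prime_iff_eq hq hp).1 h)) hζp
  have hit : ∀ n : ℕ, (σ ^ n) x.1 = ζ ^ n * x.1 := by
    intro n
    induction n with
    | zero => simp
    | succ n ih =>
      rw [pow_succ', AlgEquiv.mul_apply, ih, map_mul, map_pow, hσζ, pow_succ, mul_assoc,
        div_mul_cancel₀ _ hx0]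
  rw [← map_pow]
  show (σ ^ p) x.1 = x.1
  rw [hit, hζp, one_mul]

end Roots

/-- A chosen pair of a tame generator (modulo order prime to `p`) and a Frobenius. -/
theorem exists_tameGen (hA : A.LiesOverPrime q) (hp : p.Prime) (hq : q.Prime) (hpq : q ≠ p) :
    ∃ τ : A.decompositionSubgroup ℚ, τ.1 ∈ A.inertiaSubgroupIn ℚ ∧
      ∀ {G : Type} [Group G] (r : A.decompositionSubgroup ℚ →* G)
        (F : IntermediateField ℚ Qbar), FiniteDimensional ℚ F →
        (∀ σ : A.decompositionSubgroup ℚ, (∀ x ∈ F, σ.1 x = x) → r σ = 1) →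
        (∀ σ : A.decompositionSubgroup ℚ, σ.1 ∈ A.inertiaSubgroupIn ℚ →
          ∃ k : ℕ, r σ ^ p ^ k = 1) →
        (∀ σ : A.decompositionSubgroup ℚ, σ.1 ∈ A.inertiaSubgroupIn ℚ →
          r σ ∈ Subgroup.zpowers (r τ)) ∧
        ∀ φ : A.decompositionSubgroup ℚ, A.IsFrobeniusAt φ.1 q →
          r φ * r τ * (r φ)⁻¹ = r τ ^ q := by
  obtain ⟨τ, hτ, α, hα, hτα⟩ := exists_inertia_moves hA hp hq
  refine ⟨⟨τ, inertia_le_decomposition A hτ⟩, hτ, ?_⟩
  intro G _ r F hF hr hpp
  haveI := finiteDimensional_rootsLevel p q hp.pos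
  haveI := hF
  let s : A.decompositionSubgroup ℚ →* Equiv.Perm (RootSet p q) :=
    (rootsPerm p q).comp (A.decompositionSubgroup ℚ).subtype
  let R := r.prod s
  have hRlev : ∀ σ : A.decompositionSubgroup ℚ, (∀ x ∈ F ⊔ rootsLevel p q, σ.1 x = x) → R σ = 1 :=
    fun σ h => Prod.ext (hr σ fun x hx => h x (le_sup_left (b := rootsLevel p q) hx))
      (rootsPerm_eq_one p q fun x hx => h x (le_sup_right (a := F) hx))
  have hRp : ∀ σ : A.decompositionSubgroup ℚ, σ.1 ∈ A.inertiaSubgroupIn ℚ →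
      ∃ k : ℕ, R σ ^ p ^ k = 1 := fun σ hσ => by
    obtain ⟨k, hk⟩ := hpp σ hσ
    refine ⟨k + 1, Prod.ext ?_ ?_⟩
    · show r σ ^ p ^ (k + 1) = 1
      rw [pow_succ, pow_mul, hk, one_pow]
    · show rootsPerm p q σ.1 ^ p ^ (k + 1) = 1
      rw [pow_succ', pow_mul, rootsPerm_pow_eq_one hA hq hp hpq hσ, one_pow]
  have htors : ∀ σ : A.decompositionSubgroup ℚ, σ.1 ∈ A.inertiaSubgroupIn ℚ →
      ∀ k : ℕ, R σ ^ q ^ k = 1 → R σ = 1 := fun σ hσ k hk => by
    obtain ⟨j, hj⟩ := hRp σ hσ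
    have hcop : Nat.Coprime (p ^ j) (q ^ k) :=
      ((Nat.coprime_primes hp hq).mpr (Ne.symm hpq)).pow j k
    rw [← orderOf_eq_one_iff, ← Nat.dvd_one, ← hcop]
    exact Nat.dvd_gcd (orderOf_dvd_of_pow_eq_one hj) (orderOf_dvd_of_pow_eq_one hk)
  obtain ⟨τ₀, hτ₀, hgen, hfrob⟩ :=
    TWGal.exists_tame_generator hA hq R (F ⊔ rootsLevel p q) hRlev htors
  obtain ⟨n, hn⟩ := Subgroup.mem_zpowers_iff.mp (hgen ⟨τ, inertia_le_decomposition A hτ⟩ hτ)
  have hn1 : r τ₀ ^ n = r ⟨τ, inertia_le_decomposition A hτ⟩ := congrArg Prod.fst hn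
  have hn2 : s τ₀ ^ n = s ⟨τ, inertia_le_decomposition A hτ⟩ := congrArg Prod.snd hn
  have hsτ : s ⟨τ, inertia_le_decomposition A hτ⟩ ≠ 1 := fun h => hτα
    (congrArg Subtype.val (Equiv.ext_iff.mp h ⟨α, hα⟩))
  have hpn : ¬ (p : ℤ) ∣ n := by
    rintro ⟨m, rfl⟩
    refine hsτ ?_
    rw [← hn2, zpow_mul, zpow_natCast]
    show (rootsPerm p q τ₀.1 ^ p) ^ m = 1
    rw [rootsPerm_pow_eq_one hA hq hp hpq hτ₀, one_zpow]
  obtain ⟨k, hk⟩ := hpp τ₀ hτ₀
  have hcop : IsCoprime n ((p : ℤ) ^ k) :=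
    ((Nat.prime_iff_prime_int.mp hp).coprime_iff_not_dvd.mpr hpn).symm.pow_right
  obtain ⟨u, v, huv⟩ := hcop
  have hback : r τ₀ ∈ Subgroup.zpowers (r ⟨τ, inertia_le_decomposition A hτ⟩) := by
    refine Subgroup.mem_zpowers_iff.mpr ⟨u, ?_⟩
    rw [← hn1, ← zpow_mul]
    have h1 : n * u = 1 - v * (p : ℤ) ^ k := by linear_combination huv
    rw [h1, zpow_sub, zpow_one, mul_comm v, zpow_mul]
    have h2 : r τ₀ ^ ((p : ℤ) ^ k) = 1 := by
      rw [← Nat.cast_pow, zpow_natCast, hk]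
    rw [h2, one_zpow, inv_one, mul_one]
  refine ⟨fun σ hσ => ?_, fun φ hφ => ?_⟩
  · obtain ⟨m, hm⟩ := Subgroup.mem_zpowers_iff.mp (hgen σ hσ)
    have hm' : r τ₀ ^ m = r σ := congrArg Prod.fst hm
    rw [← hm']
    exact zpow_mem hback m
  · have h : r φ * r τ₀ * (r φ)⁻¹ = r τ₀ ^ q := congrArg Prod.fst (hfrob φ hφ).1
    rw [← hn1, ← conj_zpow, h, ← zpow_natCast, ← zpow_natCast, ← zpow_mul, ← zpow_mul, mul_comm]

end Fermat.Agent.LL
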