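import Fermat.Agent.LL.Setting
import Fermat.Agent.LL.Galois.Generator

/-!
# Existence of tame generators
-/

set_option autoImplicit false

noncomputable section

namespace Fermat.Agent.LL

/-- Every place over a prime `r ≠ p` has a tame generator for every Frobenius. -/
theorem exists_isTameGen {p r : ℕ} (hp : p.Prime) (hr : r.Prime) (hrp : r ≠ p)
    {P : ValuationSubring (AlgebraicClosure ℚ)} (hP : P.LiesOverPrime r)
    {φ : AlgebraicClosure ℚ ≃ₐ[ℚ] AlgebraicClosure ℚ} (hφ : P.IsFrobeniusAt φ r) :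
    ∃ τ, IsTameGen p r P φ τ := by
  obtain ⟨τ, hτ, hgen⟩ := exists_tameGen hP hp hr hrp
  refine ⟨τ.1, ⟨hτ, fun H _ f F hF hlev hpp τ' φ' hτ' hφ' => ?_⟩⟩
  obtain ⟨h1, h2⟩ := hgen f F hF hlev hpp
  obtain rfl : τ' = τ := Subtype.ext hτ'
  refine ⟨h1, ?_⟩
  rw [← h2 φ' (hφ' ▸ hφ), inv_mul_cancel_right]

end Fermat.Agent.LL
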