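import Fermat.Agent.LL.Setting
import Fermat.Agent.R59.DefRings

/-!
# Deformation rings of the level lowering setting
-/

set_option autoImplicit false

noncomputable section

open IsLocalRing

namespace Fermat.Agent.LL

/-- The residual representation has the deformation type of every set of auxiliary primes. -/
theorem Setting.defCond_residual (U : Setting) {R : ℕ} (qv : Fin R → ℕ) :
    U.defCond qv (GaloisRepAdic.ofResidualGaloisRep U.ρbar) :=
  ⟨U.baseCond_residual fun _ hx => Finset.mem_union_left _
    (Finset.insert_subset_insert _ Finset.subset_union_left hx),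
    fun _ hq _ hqp => U.unipotent_of_mem hq hqp⟩

/-- The deformation rings exist. -/
theorem Setting.nonempty_deformationRingData (U : Setting) {R : ℕ} (qv : Fin R → ℕ) :
    Nonempty (GaloisRep.DeformationRingData U.O U.ρbar (U.defCond qv)) :=
  S53.result U.O U.ρbar _ U.absIrr (R59.isDeformationCondition_cond U.two_ne_p U.kind _ _)
    (U.defCond_residual qv) (R59.tangentFinite_cond U.ρbar U.kind _ _)

end Fermat.Agent.LL
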