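import Fermat.Agent.LL.Setting
import Fermat.Agent.LL.Core
import Fermat.Agent.R59.CotGrowth.Main

/-!
# Relations at a prime where the residual representation is unramified

If the residual representation is unramified at `r ≠ p` and the determinant is cyclotomic, a tame
generator `τ` and a Frobenius `φ` satisfy `det φ = r`, `det τ = 1` and `φ τ = τ ^ r φ` in the
deformation ring.
-/

set_option autoImplicit false

noncomputable section

open IsLocalRing Fermat.Agent.Deform Fermat.Agent.R59.CotGrowth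

namespace Fermat.Agent.LL

/-- Multiplying the ideal of the entries of `M - 1` by the maximal ideal when raising to the power
`p`. -/
theorem pow_sub_one_mem {A n : Type} [CommRing A] [IsLocalRing A] [Fintype n] [DecidableEq n]
    {p : ℕ} (hp : (p : A) ∈ maximalIdeal A) {j : ℕ} (hj : 1 ≤ j) {M : Matrix n n A}
    (hM : ∀ a b, (M - 1) a b ∈ maximalIdeal A ^ j) :
    ∀ a b, (M ^ p - 1) a b ∈ maximalIdeal A ^ (j + 1) := by
  let mk : Matrix n n A →+* Matrix n n (A ⧸ maximalIdeal A) :=
    (Ideal.Quotient.mk (maximalIdeal A)).mapMatrix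
  have hmk : mk M = 1 := by
    rw [← sub_eq_zero, ← map_one mk, ← map_sub]
    ext a b
    exact Ideal.Quotient.eq_zero_iff_mem.mpr (Ideal.pow_le_self (Nat.one_le_iff_ne_zero.mp hj)
      (hM a b))
  have hS : ∀ a b, (∑ i ∈ Finset.range p, M ^ i) a b ∈ maximalIdeal A := by
    intro a b
    rw [← Ideal.Quotient.eq_zero_iff_mem]
    have h : mk (∑ i ∈ Finset.range p, M ^ i) = 0 := by
      rw [map_sum]
      simp only [map_pow, hmk, one_pow, Finset.sum_const, Finset.card_range, nsmul_one]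
      rw [← map_natCast mk]
      ext a b
      rcases eq_or_ne a b with rfl | hab
      · simpa [mk, Matrix.natCast_apply] using Ideal.Quotient.eq_zero_iff_mem.mpr hp
      · simp [mk, Matrix.natCast_apply, hab]
    exact congrFun (congrFun h a) b
  intro a b
  rw [← mul_geom_sum, Matrix.mul_apply, pow_succ]
  exact Ideal.sum_mem _ fun c _ => Ideal.mul_mem_mul (hM a c) (hS c b)

/-- Matrices congruent to `1` have `p`-power order modulo every power of the maximal ideal. -/
theorem pow_pow_sub_one_mem {A n : Type} [CommRing A] [IsLocalRing A] [Fintype n] [DecidableEq n]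
    {p : ℕ} (hp : (p : A) ∈ maximalIdeal A) {M : Matrix n n A}
    (hM : ∀ a b, (M - 1) a b ∈ maximalIdeal A) (k : ℕ) :
    ∀ a b, (M ^ p ^ k - 1) a b ∈ maximalIdeal A ^ (k + 1) := by
  induction k with
  | zero => simpa using hM
  | succ k ih =>
    intro a b
    rw [show p ^ (k + 1) = p ^ k * p from pow_succ p k, pow_mul]
    exact pow_sub_one_mem hp (Nat.le_add_left 1 k) ih a b

variable {A : Type} [CommRing A] [IsLocalRing A]

/-- An element trivial on the residual representation is `1` modulo the maximal ideal. -/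
theorem matOf_sub_one_mem_of_residual {ρ : GaloisRepAdic A} (b : Module.Basis (Fin 2) A ρ.V)
    {σ : AlgebraicClosure ℚ ≃ₐ[ℚ] AlgebraicClosure ℚ} (h : ρ.residual.ρ σ = 1) :
    ∀ i j, (matOf ρ b σ - 1) i j ∈ maximalIdeal A := by
  intro i j
  have h1 : (LinearMap.toMatrix b b (ρ.ρ σ)).map (algebraMap A (ResidueField A)) = 1 := by
    rw [← LinearMap.toMatrix_baseChange]
    exact (congrArg _ h).trans (LinearMap.toMatrix_one _)
  rw [← residue_eq_zero_iff, Matrix.sub_apply, map_sub, matOf_apply, sub_eq_zero]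
  refine (congrFun (congrFun h1 i) j).trans ?_
  rcases eq_or_ne i j with rfl | hij
  · rw [Matrix.one_apply_eq, Matrix.one_apply_eq, map_one]
  · rw [Matrix.one_apply_ne hij, Matrix.one_apply_ne hij, map_zero]

variable [IsNoetherianRing A]

/-- The relations at `r`. -/
theorem relations_of_residual_unramified {p r : ℕ} (hp : p.Prime) (hr : r.Prime) (hne : r ≠ p)
    (ρ : GaloisRepAdic A) (hd : ρ.DetIsCyclotomic p) {P : ValuationSubring (AlgebraicClosure ℚ)}
    (hP : P.LiesOverPrime r) (hres : ∀ σ ∈ P.inertiaSubgroupIn ℚ, ρ.residual.ρ σ = 1)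
    {φ τ : AlgebraicClosure ℚ ≃ₐ[ℚ] AlgebraicClosure ℚ} (hφ : P.IsFrobeniusAt φ r)
    (hτ : IsTameGen p r P φ τ) :
    LinearMap.det (ρ.ρ φ) = (r : A) ∧ LinearMap.det (ρ.ρ τ) = 1 ∧
      ρ.ρ φ * ρ.ρ τ = ρ.ρ τ ^ r * ρ.ρ φ := by
  obtain ⟨b⟩ := finBasisV ρ
  refine ⟨?_, ?_, ?_⟩
  · rw [← LinearMap.det_toMatrix b]
    exact det_frobenius hp hr hne ρ hd b hP hφ
  · rw [← LinearMap.det_toMatrix b]
    exact det_inertia hp hr hne ρ hd b hP hτ.mem
  · have hM : matOf ρ b φ * matOf ρ b τ = matOf ρ b τ ^ r * matOf ρ b φ := by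
      ext i j
      refine DefCond.eq_of_forall_mk_eq fun n => ?_
      obtain ⟨L, hL, hfix⟩ := isContRep_matOf ρ b (n + 1)
      let mk : A →+* A ⧸ maximalIdeal A ^ (n + 1) := Ideal.Quotient.mk _
      have hker : ∀ X : Matrix (Fin 2) (Fin 2) A,
          (∀ a b, (X - 1) a b ∈ maximalIdeal A ^ (n + 1)) → mk.mapMatrix X = 1 := by
        intro X hX
        rw [← sub_eq_zero, ← map_one mk.mapMatrix, ← map_sub]
        ext a b
        exact Ideal.Quotient.eq_zero_iff_mem.mpr (hX a b)
      let f : P.decompositionSubgroup ℚ →* (Matrix (Fin 2) (Fin 2) (A ⧸ maximalIdeal A ^ (n + 1)))ˣ :=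
        ((mapRep mk (matOf ρ b)).comp (P.decompositionSubgroup ℚ).subtype).toHomUnits
      obtain ⟨φ', rfl⟩ : ∃ φ' : P.decompositionSubgroup ℚ, φ'.1 = φ := ⟨⟨φ, hφ.1⟩, rfl⟩
      obtain ⟨τ', rfl⟩ : ∃ τ' : P.decompositionSubgroup ℚ, τ'.1 = τ :=
        ⟨⟨τ, Galois.inertia_le_decomposition P hτ.mem⟩, rfl⟩
      have h := (hτ.gen _ f L hL (fun σ hσ => Units.ext (hker _ (hfix σ.1 hσ)))
        (fun σ hσ => ⟨n, Units.ext (by
          rw [Units.val_pow_eq_pow_val]
          show mk.mapMatrix (matOf ρ b σ.1) ^ p ^ n = 1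
          rw [← map_pow]
          exact hker _ (pow_pow_sub_one_mem hd.1
            (matOf_sub_one_mem_of_residual b (hres σ.1 hσ)) n))⟩) τ' φ' rfl rfl).2
      have h' := congrArg Units.val h
      rw [Units.val_mul, Units.val_mul, Units.val_pow_eq_pow_val] at h'
      change mk.mapMatrix (matOf ρ b φ'.1) * mk.mapMatrix (matOf ρ b τ'.1) =
        mk.mapMatrix (matOf ρ b τ'.1) ^ r * mk.mapMatrix (matOf ρ b φ'.1) at h'
      rw [← map_pow mk.mapMatrix, ← map_mul mk.mapMatrix, ← map_mul mk.mapMatrix] at h'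
      exact congrFun (congrFun h' i) j
    rw [← map_pow (matOf ρ b), ← map_mul, ← map_mul] at hM
    rw [← map_pow, ← map_mul, ← map_mul]
    exact (LinearMap.toMatrix b b).injective hM

namespace Setting

variable (U : Setting)

theorem residual_inertia_eq_one (i : U.Idx) {σ : AlgebraicClosure ℚ ≃ₐ[ℚ] AlgebraicClosure ℚ}
    (hσ : σ ∈ (U.place i).inertiaSubgroupIn ℚ) : U.ρbar.ρ σ = 1 :=
  U.hard_isUnramifiedAt i _ (U.place_liesOver i) σ hσ

/-- The relations at the hard primes in a deformation ring. -/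
theorem relations {R : ℕ} {qv : Fin R → ℕ}
    (D : GaloisRep.DeformationRingData U.O U.ρbar (U.defCond qv)) (i : U.Idx) :
    LinearMap.det (D.ρ.ρ (U.frob i)) = (i.1 : D.R) ∧ LinearMap.det (D.ρ.ρ (U.tame i)) = 1 ∧
      D.ρ.ρ (U.frob i) * D.ρ.ρ (U.tame i) = D.ρ.ρ (U.tame i) ^ i.1 * D.ρ.ρ (U.frob i) := by
  refine relations_of_residual_unramified Fact.out (U.hard_prime i) (U.hard_ne_p i) D.ρ
    (R59.cond_detIsCyclotomic D.isOfType) (U.place_liesOver i) (fun σ hσ => ?_)
    (U.frob_spec i) (U.tame_spec i)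
  obtain ⟨e⟩ := D.residual_isEquiv
  refine LinearMap.ext fun x => e.toLinearEquiv.injective ?_
  rw [e.map_apply, Module.End.one_apply]
  letI : Algebra (ResidueField U.O) (ResidueField D.R) :=
    (ResidueField.map (algebraMap U.O D.R)).toAlgebra
  show ((U.ρbar.ρ σ).baseChange (ResidueField D.R)) _ = _
  rw [U.residual_inertia_eq_one i hσ, LinearMap.baseChange_one, Module.End.one_apply]

/-- A presentation kills the relations at the hard primes. -/
theorem map_relations {R : ℕ} {qv : Fin R → ℕ}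
    {D : GaloisRep.DeformationRingData U.O U.ρbar (U.defCond qv)} {G : Type} (i : U.Idx)
    (γ : MvPowerSeries (LocVar U.Idx G) U.O →+* D.R) (b : Module.Basis (Fin 2) D.R D.ρ.V)
    (hΦ : (univPhi U.O i).map γ =
      ((U.sign i : ℤ) : D.R) • LinearMap.toMatrix b b (D.ρ.ρ (U.frob i)))
    (hS : (univSig U.O i).map γ = LinearMap.toMatrix b b (D.ρ.ρ (U.tame i))) :
    γ ((univPhi U.O i).det - (i.1 : MvPowerSeries (LocVar U.Idx G) U.O)) = 0 ∧
      γ ((univSig (G := G) U.O i).det - 1) = 0 ∧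
      ∀ a c, γ ((univPhi U.O i * univSig U.O i - univSig U.O i ^ i.1 * univPhi U.O i :
        Matrix (Fin 2) (Fin 2) (MvPowerSeries (LocVar U.Idx G) U.O)) a c) = 0 := by
  obtain ⟨h1, h2, h3⟩ := U.relations D i
  have hs : ((U.sign i : ℤ) : D.R) * ((U.sign i : ℤ) : D.R) = 1 := by
    rw [← Int.cast_mul, ← Units.val_mul, Int.units_mul_self, Units.val_one, Int.cast_one]
  refine ⟨?_, ?_, fun a c => ?_⟩
  · rw [map_sub, map_natCast, RingHom.map_det, RingHom.mapMatrix_apply, hΦ, Matrix.det_smul,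
      LinearMap.det_toMatrix, h1, Fintype.card_fin, pow_two, hs, one_mul, sub_self]
  · rw [map_sub, map_one, RingHom.map_det, RingHom.mapMatrix_apply, hS, LinearMap.det_toMatrix, h2,
      sub_self]
  · have h : γ.mapMatrix (univPhi U.O i * univSig U.O i - univSig U.O i ^ i.1 * univPhi U.O i) =
        0 := by
      rw [map_sub, map_mul, map_mul, map_pow, RingHom.mapMatrix_apply, RingHom.mapMatrix_apply,
        hΦ, hS, Matrix.smul_mul, Matrix.mul_smul, ← LinearMap.toMatrix_mul,
        LinearMap.toMatrix_pow, ← LinearMap.toMatrix_mul, h3, sub_self]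
    exact congrFun (congrFun h a) c

/-- Modules over a deformation ring satisfy the local relations. -/
theorem modRel {R g : ℕ} {qv : Fin R → ℕ}
    {D : GaloisRep.DeformationRingData U.O U.ρbar (U.defCond qv)} (i : U.Idx)
    (γ : MvPowerSeries (LocVar U.Idx (Fin g)) U.O →+* D.R) (b : Module.Basis (Fin 2) D.R D.ρ.V)
    (hΦ : (univPhi U.O i).map γ =
      ((U.sign i : ℤ) : D.R) • LinearMap.toMatrix b b (D.ρ.ρ (U.frob i)))
    (hS : (univSig U.O i).map γ = LinearMap.toMatrix b b (D.ρ.ρ (U.tame i)))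
    (M : Type) [AddCommGroup M] [Module D.R M]
    [Module (MvPowerSeries (LocVar U.Idx (Fin g)) U.O) M]
    (hγ : ∀ (f : MvPowerSeries (LocVar U.Idx (Fin g)) U.O) (m : M), f • m = γ f • m) :
    ModRel (O := U.O) (G := Fin g) i.1 i M := by
  obtain ⟨h1, h2, h3⟩ := U.map_relations i γ b hΦ hS
  exact ⟨fun m => by rw [hγ, h1, zero_smul], fun m => by rw [hγ, h2, zero_smul],
    fun a c m => by rw [hγ, h3, zero_smul]⟩

end Setting

end Fermat.Agent.LL
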